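/-
S48lib / Lift / SZDiv (helper6).
Schur–Zassenhaus for an abelian normal subgroup of finite index on which the `index`-th power map
is bijective (no finiteness of the subgroup), and the corresponding lifting lemma.
The proofs follow Mathlib's `SchurZassenhausAbelian` section, with `powCoprime` replaced by the
bijectivity hypothesis.
-/
import Mathlib

set_option autoImplicit false
set_option linter.style.haveILetI false

namespace Fermat.Agent.S48lib.Lift

open MulOpposite MulAction Subgroup Subgroup.leftTransversals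
open scoped IsMulCommutative

section Abelian

variable {E : Type*} [Group E] {H : Subgroup E} [IsMulCommutative H] [FiniteIndex H] [Normal H]

theorem eq_one_of_smul_eq_one_of_pow (hpow : Function.Injective (fun h : H => h ^ H.index))
    (α : H.QuotientDiff) (h : H) : h • α = α → h = 1 :=
  Quotient.inductionOn' α fun α hα =>
    hpow <|
      calc
        h ^ H.index = diff (MonoidHom.id H) (op ((h⁻¹ : H) : E) • α) α := by
          rw [← diff_inv, smul_diff', diff_self, one_mul, inv_pow, inv_inv]
        _ = 1 ^ H.index := (Quotient.exact' hα).trans (one_pow H.index).symm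

theorem exists_smul_eq_of_pow (hpow : Function.Surjective (fun h : H => h ^ H.index))
    (α β : H.QuotientDiff) : ∃ h : H, h • α = β :=
  Quotient.inductionOn' α
    (Quotient.inductionOn' β fun β α => by
      obtain ⟨x, hx⟩ := hpow (diff (MonoidHom.id H) β α)
      simp only at hx
      refine ⟨x, Quotient.sound' ?_⟩
      refine (diff_inv _ _ _).symm.trans (inv_eq_one.mpr ?_)
      refine (smul_diff' β α x⁻¹).trans ?_
      rw [inv_pow, hx, mul_inv_cancel])

/-- **Schur–Zassenhaus, uniquely divisible abelian kernel** -/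
theorem exists_isComplement'_of_pow_bijective
    (hpow : Function.Bijective (fun h : H => h ^ H.index)) :
    ∃ K : Subgroup E, IsComplement' H K := by
  have ne : Nonempty (QuotientDiff H) := inferInstance
  obtain ⟨α⟩ := ne
  exact ⟨stabilizer E α, isComplement'_stabilizer α (eq_one_of_smul_eq_one_of_pow hpow.1 α)
    fun g => exists_smul_eq_of_pow hpow.2 (g • α) α⟩

end Abelian

/-- **lifting through a surjection with uniquely divisible abelian kernel** -/
theorem exists_lift_of_divisible {G E Q : Type*} [Group G] [Group E] [Group Q] [Finite G]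
    (π : E →* Q) (hπ : Function.Surjective π) (φ : G →* Q)
    (hcomm : ∀ x y : E, x ∈ π.ker → y ∈ π.ker → x * y = y * x)
    (hpow : ∀ m : ℕ, 0 < m → m ∣ Nat.card G →
      (∀ x y : E, x ∈ π.ker → y ∈ π.ker → x ^ m = y ^ m → x = y) ∧
      ∀ y : E, y ∈ π.ker → ∃ x : E, x ∈ π.ker ∧ x ^ m = y) :
    ∃ ψ : G →* E, ∀ g, π (ψ g) = φ g := by
  classical
  set E' : Subgroup E := φ.range.comap π with hE'
  have hkerE' : π.ker ≤ E' := by
    intro x hx
    rw [hE', Subgroup.mem_comap, MonoidHom.mem_ker.1 hx]
    exact one_mem _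
  set π' : E' →* φ.range := (π.comp E'.subtype).codRestrict φ.range (fun x => x.2) with hπ'
  have hπ'surj : Function.Surjective π' := by
    rintro ⟨q, hq⟩
    obtain ⟨e, he⟩ := hπ q
    refine ⟨⟨e, ?_⟩, ?_⟩
    · rw [hE', Subgroup.mem_comap, he]; exact hq
    · apply Subtype.ext
      exact he
  set N : Subgroup E' := π'.ker with hN
  haveI : N.Normal := MonoidHom.normal_ker π'
  have hmemN : ∀ x : E', x ∈ N ↔ (x : E) ∈ π.ker := by
    intro x
    constructor
    · intro hx
      have h1 : π' x = 1 := MonoidHom.mem_ker.1 hx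
      exact MonoidHom.mem_ker.2 (congrArg Subtype.val h1)
    · intro hx
      apply MonoidHom.mem_ker.2
      apply Subtype.ext
      exact MonoidHom.mem_ker.1 hx
  haveI : IsMulCommutative N := by
    refine ⟨⟨fun x y => ?_⟩⟩
    apply Subtype.ext
    apply Subtype.ext
    exact hcomm _ _ ((hmemN x.1).1 x.2) ((hmemN y.1).1 y.2)
  have hindex : N.index = Nat.card φ.range := by
    rw [Subgroup.index_ker π', MonoidHom.range_eq_top.2 hπ'surj]
    exact Nat.card_congr Subgroup.topEquiv.toEquiv
  have hdvd : N.index ∣ Nat.card G := by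
    rw [hindex, ← Subgroup.index_ker φ]
    exact Subgroup.index_dvd_card _
  haveI : N.FiniteIndex := ⟨fun h0 => by
    rw [h0] at hdvd
    exact Nat.card_pos.ne' (Nat.eq_zero_of_zero_dvd hdvd)⟩
  have hpos : 0 < N.index := Nat.pos_of_ne_zero FiniteIndex.index_ne_zero
  obtain ⟨hinj, hsurj⟩ := hpow N.index hpos hdvd
  have hbij : Function.Bijective (fun h : N => h ^ N.index) := by
    constructor
    · intro x y hxy
      simp only at hxy
      have h1 := congrArg (fun z : N => ((z : E') : E)) hxy
      simp only [Subgroup.coe_pow] at h1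
      apply Subtype.ext
      apply Subtype.ext
      exact hinj _ _ ((hmemN x.1).1 x.2) ((hmemN y.1).1 y.2) h1
    · intro y
      obtain ⟨x, hx, hxy⟩ := hsurj (y : E') ((hmemN y.1).1 y.2)
      refine ⟨⟨⟨x, hkerE' hx⟩, (hmemN _).2 hx⟩, ?_⟩
      apply Subtype.ext
      apply Subtype.ext
      simp only [Subgroup.coe_pow]
      exact hxy
  obtain ⟨K, hK⟩ := exists_isComplement'_of_pow_bijective hbij
  set θ : K →* φ.range := π'.comp K.subtype with hθ
  have hθinj : Function.Injective θ := by
    rw [injective_iff_map_eq_one]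
    intro h hh
    have h1 : (h : E') ∈ N := by rw [hN, MonoidHom.mem_ker]; exact hh
    have h2 : (h : E') ∈ N ⊓ K := ⟨h1, h.2⟩
    rw [hK.disjoint.eq_bot, Subgroup.mem_bot] at h2
    exact Subtype.ext h2
  have hθsurj : Function.Surjective θ := by
    intro q
    obtain ⟨e, he⟩ := hπ'surj q
    obtain ⟨⟨⟨n, hn⟩, ⟨h, hh⟩⟩, hnh⟩ := hK.existsUnique e
    simp only at hnh
    obtain ⟨rfl, -⟩ := hnh
    refine ⟨⟨h, hh⟩, ?_⟩
    rw [← he, map_mul]
    have : π' n = 1 := MonoidHom.mem_ker.1 hn
    rw [this, one_mul]
    rfl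
  let e : K ≃* φ.range := MulEquiv.ofBijective θ ⟨hθinj, hθsurj⟩
  refine ⟨(E'.subtype.comp K.subtype).comp (e.symm.toMonoidHom.comp φ.rangeRestrict), ?_⟩
  intro g
  have h1 : θ (e.symm (φ.rangeRestrict g)) = φ.rangeRestrict g := e.apply_symm_apply _
  exact congrArg Subtype.val h1

end Fermat.Agent.S48lib.Lift
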