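/-
S48lib / Lift / SqZero (helper6).
One lifting step: `f : A →+* B` onto with square-zero kernel, `G` finite with `#G` invertible in
`A`; then every `ρ : G →* GL₂(B)` lifts to `GL₂(A)`.
-/
import Fermat.Agent.S48lib.Lift.SZDiv

set_option autoImplicit false
set_option linter.unusedSectionVars false

namespace Fermat.Agent.S48lib.Lift

open Matrix

variable {A B : Type*} [CommRing A] [CommRing B] (f : A →+* B)

/-- units lift along a surjection with square-zero kernel -/
theorem isUnit_of_map_of_sqZero (hsq : ∀ a b : A, f a = 0 → f b = 0 → a * b = 0)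
    (hf : Function.Surjective f) {a : A} (ha : IsUnit (f a)) : IsUnit a := by
  obtain ⟨u, hu⟩ := ha
  obtain ⟨b, hb⟩ := hf (u⁻¹ : Bˣ)
  have h1 : f (a * b - 1) = 0 := by
    rw [map_sub, map_mul, map_one, hb, ← hu, Units.mul_inv, sub_self]
  set z := a * b - 1 with hz
  have hzz : z * z = 0 := hsq z z h1 h1
  have h2 : a * (b * (1 - z)) = 1 := by
    have : a * b = 1 + z := by rw [hz]; ring
    calc a * (b * (1 - z)) = (a * b) * (1 - z) := by ring
      _ = (1 + z) * (1 - z) := by rw [this]
      _ = 1 - z * z := by ring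
      _ = 1 := by rw [hzz, sub_zero]
  exact IsUnit.of_mul_eq_one _ h2

/-- the induced map on `GL₂` -/
def glMap : GL (Fin 2) A →* GL (Fin 2) B := Matrix.GeneralLinearGroup.map f

theorem glMap_val (x : GL (Fin 2) A) : (glMap f x).val = x.val.map f := rfl

theorem glMap_surjective (hsq : ∀ a b : A, f a = 0 → f b = 0 → a * b = 0)
    (hf : Function.Surjective f) : Function.Surjective (glMap f) := by
  intro M
  choose s hs using hf
  set M' : Matrix (Fin 2) (Fin 2) A := Matrix.of fun i j => s (M.val i j) with hM'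
  have hmap : M'.map f = M.val := by
    ext i j
    simp [hM', hs]
  have hdet : IsUnit M'.det := by
    apply isUnit_of_map_of_sqZero f hsq (fun b => ⟨s b, hs b⟩)
    have h1 : f M'.det = (M'.map f).det := by
      rw [RingHom.map_det]
      rfl
    rw [h1, hmap]
    exact (Matrix.isUnit_iff_isUnit_det _).1 M.isUnit
  refine ⟨Matrix.GeneralLinearGroup.mk'' M' hdet, ?_⟩
  apply Units.ext
  rw [glMap_val]
  exact hmap

/-- the entries of `x - 1` for `x` in the kernel -/
theorem map_sub_one_eq_zero_of_mem_ker {x : GL (Fin 2) A} (hx : x ∈ (glMap f).ker) (i j : Fin 2) :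
    f ((x.val - 1) i j) = 0 := by
  have hx1 : (glMap f x).val = 1 := by
    rw [MonoidHom.mem_ker.1 hx]; rfl
  rw [glMap_val] at hx1
  have h1 := congrFun (congrFun hx1 i) j
  rw [Matrix.map_apply] at h1
  rw [Matrix.sub_apply, map_sub, h1]
  by_cases hij : i = j
  · subst hij; simp
  · simp [Matrix.one_apply_ne hij]

theorem mem_ker_of_map_sub_one {x : GL (Fin 2) A} (hx : ∀ i j, f ((x.val - 1) i j) = 0) :
    x ∈ (glMap f).ker := by
  apply MonoidHom.mem_ker.2
  apply Units.ext
  rw [glMap_val]
  ext i j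
  have h1 := hx i j
  rw [Matrix.sub_apply, map_sub, sub_eq_zero] at h1
  rw [Matrix.map_apply, h1]
  by_cases hij : i = j
  · subst hij; simp
  · simp [Matrix.one_apply_ne hij]

section

variable (hsq : ∀ a b : A, f a = 0 → f b = 0 → a * b = 0)
include hsq

theorem mul_eq_zero_of_entries {y y' : Matrix (Fin 2) (Fin 2) A} (hy : ∀ i j, f (y i j) = 0)
    (hy' : ∀ i j, f (y' i j) = 0) : y * y' = 0 := by
  ext i j
  rw [Matrix.mul_apply]
  simp only [Matrix.zero_apply]
  apply Finset.sum_eq_zero
  intro m _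
  exact hsq _ _ (hy i m) (hy' m j)

theorem one_add_pow_of_sq_zero {y : Matrix (Fin 2) (Fin 2) A} (hyy : y * y = 0) (n : ℕ) :
    (1 + y) ^ n = 1 + (n : A) • y := by
  induction n with
  | zero => simp
  | succ n ih =>
    rw [pow_succ (1 + y) n, ih]
    have : (1 + (n : A) • y) * (1 + y) = 1 + ((n : A) + 1) • y + (n : A) • (y * y) := by
      rw [add_mul, mul_add, mul_add, Matrix.one_mul, Matrix.one_mul, Matrix.mul_one,
        Matrix.smul_mul, add_smul, one_smul]
      abel
    rw [this, hyy, smul_zero, add_zero]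
    push_cast
    rfl

theorem ker_comm (x y : GL (Fin 2) A) (hx : x ∈ (glMap f).ker) (hy : y ∈ (glMap f).ker) :
    x * y = y * x := by
  apply Units.ext
  rw [Units.val_mul, Units.val_mul]
  set a := x.val - 1 with ha
  set b := y.val - 1 with hb
  have hab : a * b = 0 := mul_eq_zero_of_entries f hsq
    (map_sub_one_eq_zero_of_mem_ker f hx) (map_sub_one_eq_zero_of_mem_ker f hy)
  have hba : b * a = 0 := mul_eq_zero_of_entries f hsq
    (map_sub_one_eq_zero_of_mem_ker f hy) (map_sub_one_eq_zero_of_mem_ker f hx)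
  have hx' : x.val = 1 + a := by rw [ha]; abel
  have hy' : y.val = 1 + b := by rw [hb]; abel
  rw [hx', hy']
  calc (1 + a) * (1 + b) = 1 + a + b + a * b := by
        rw [add_mul, mul_add, mul_add, Matrix.one_mul, Matrix.one_mul, Matrix.mul_one]; abel
    _ = 1 + b + a + b * a := by rw [hab, hba]; abel
    _ = (1 + b) * (1 + a) := by
        rw [add_mul, mul_add, mul_add, Matrix.one_mul, Matrix.one_mul, Matrix.mul_one]; abel

theorem ker_pow_val {x : GL (Fin 2) A} (hx : x ∈ (glMap f).ker) (m : ℕ) :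
    (x ^ m).val = 1 + (m : A) • (x.val - 1) := by
  rw [Units.val_pow_eq_pow_val]
  have hyy : (x.val - 1) * (x.val - 1) = 0 := mul_eq_zero_of_entries f hsq
    (map_sub_one_eq_zero_of_mem_ker f hx) (map_sub_one_eq_zero_of_mem_ker f hx)
  have hx' : x.val = 1 + (x.val - 1) := by abel
  conv_lhs => rw [hx']
  exact one_add_pow_of_sq_zero f hsq hyy m

theorem ker_pow_injective {m : ℕ} (hm : IsUnit (m : A)) (x y : GL (Fin 2) A)
    (hx : x ∈ (glMap f).ker) (hy : y ∈ (glMap f).ker) (hxy : x ^ m = y ^ m) : x = y := by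
  have h1 := congrArg Units.val hxy
  rw [ker_pow_val f hsq hx, ker_pow_val f hsq hy] at h1
  have h2 : (m : A) • (x.val - 1) = (m : A) • (y.val - 1) := add_left_cancel h1
  obtain ⟨u, hu⟩ := hm
  have h3 : (x.val - 1) = (y.val - 1) := by
    have := congrArg (fun z => (↑u⁻¹ : A) • z) h2
    simp only [smul_smul] at this
    rw [← hu, Units.inv_mul, one_smul, one_smul] at this
    exact this
  apply Units.ext
  exact sub_left_injective h3

theorem ker_pow_surjective (hf : Function.Surjective f) {m : ℕ} (hm : IsUnit (m : A))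
    (y : GL (Fin 2) A) (hy : y ∈ (glMap f).ker) :
    ∃ x : GL (Fin 2) A, x ∈ (glMap f).ker ∧ x ^ m = y := by
  obtain ⟨u, hu⟩ := hm
  set b := y.val - 1 with hb
  have hbz : ∀ i j, f (b i j) = 0 := map_sub_one_eq_zero_of_mem_ker f hy
  set X : Matrix (Fin 2) (Fin 2) A := 1 + (↑u⁻¹ : A) • b with hX
  have hXz : ∀ i j, f ((X - 1) i j) = 0 := by
    intro i j
    have : X - 1 = (↑u⁻¹ : A) • b := by rw [hX]; abel
    rw [this, Matrix.smul_apply, smul_eq_mul, map_mul, hbz i j, mul_zero]
  have hXdet : IsUnit X.det := by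
    apply isUnit_of_map_of_sqZero f hsq hf
    have h1 : f X.det = (X.map f).det := by
      rw [RingHom.map_det]; rfl
    have h2 : X.map f = 1 := by
      ext i j
      have h3 := hXz i j
      rw [Matrix.sub_apply, map_sub, sub_eq_zero] at h3
      rw [Matrix.map_apply, h3]
      by_cases hij : i = j
      · subst hij; simp
      · simp [Matrix.one_apply_ne hij]
    rw [h1, h2, Matrix.det_one]
    exact isUnit_one
  set x : GL (Fin 2) A := Matrix.GeneralLinearGroup.mk'' X hXdet with hx
  have hxval : x.val = X := rfl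
  have hxker : x ∈ (glMap f).ker := mem_ker_of_map_sub_one f (by rw [hxval]; exact hXz)
  refine ⟨x, hxker, ?_⟩
  apply Units.ext
  rw [ker_pow_val f hsq hxker, hxval]
  have : X - 1 = (↑u⁻¹ : A) • b := by rw [hX]; abel
  rw [this, smul_smul, ← hu, Units.mul_inv, one_smul, hb]
  abel

end

/-- **one lifting step** -/
theorem exists_lift_of_sqZero (hsq : ∀ a b : A, f a = 0 → f b = 0 → a * b = 0)
    (hf : Function.Surjective f) {G : Type*} [Group G] [Finite G]
    (hG : IsUnit ((Nat.card G : ℕ) : A)) (ρ : G →* GL (Fin 2) B) :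
    ∃ ρ' : G →* GL (Fin 2) A, ∀ g, glMap f (ρ' g) = ρ g := by
  apply exists_lift_of_divisible (glMap f) (glMap_surjective f hsq hf) ρ (ker_comm f hsq)
  intro m _ hm
  have hmu : IsUnit (m : A) := by
    obtain ⟨c, hc⟩ := hm
    rw [hc, Nat.cast_mul] at hG
    exact isUnit_of_mul_isUnit_left hG
  exact ⟨fun x y hx hy hxy => ker_pow_injective f hsq hmu x y hx hy hxy,
    fun y hy => ker_pow_surjective f hsq hf hmu y hy⟩

end Fermat.Agent.S48lib.Lift
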