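/-
S48lib / Lift / Adic (helper6).
**I8b**: for a ring `R` complete with respect to an ideal `I` and a finite group `G` whose order is
invertible in `R`, every `r : G →* GL₂(R ⧸ I)` lifts to `GL₂(R)` (tower of square-zero lifting
steps + `IsAdicComplete.liftRingHom`).  `Lift.liftStmt` is helper2's `DS.LiftStmt` verbatim.
-/
import Fermat.Agent.S48lib.Lift.SqZero

set_option autoImplicit false
set_option linter.unusedSectionVars false
set_option linter.style.haveILetI false

noncomputable section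

namespace Fermat.Agent.S48lib.Lift

open Matrix

variable {R : Type*} [CommRing R] (I : Ideal R)

/-- the transition map `R ⧸ I^(n+1) → R ⧸ I^n` -/
abbrev qRed (n : ℕ) : R ⧸ I ^ (n + 1) →+* R ⧸ I ^ n := Ideal.Quotient.factorPow I (Nat.le_succ n)

theorem qRed_surjective (n : ℕ) : Function.Surjective (qRed I n) :=
  Ideal.Quotient.factor_surjective _

theorem qRed_sqZero {n : ℕ} (hn : 1 ≤ n) (a b : R ⧸ I ^ (n + 1)) (ha : qRed I n a = 0)
    (hb : qRed I n b = 0) : a * b = 0 := by
  obtain ⟨x, rfl⟩ := Ideal.Quotient.mk_surjective a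
  obtain ⟨y, rfl⟩ := Ideal.Quotient.mk_surjective b
  rw [Ideal.Quotient.factor_mk, Ideal.Quotient.eq_zero_iff_mem] at ha hb
  rw [← map_mul, Ideal.Quotient.eq_zero_iff_mem]
  have h1 : x * y ∈ I ^ n * I ^ n := Ideal.mul_mem_mul ha hb
  rw [← pow_add] at h1
  exact Ideal.pow_le_pow_right (by omega) h1

/-! ### compatible sequences -/

/-- the ring of compatible sequences `(x_n ∈ R ⧸ I^n)_n` -/
def adicSeq : Subring (∀ n : ℕ, R ⧸ I ^ n) where
  carrier := {x | ∀ n, qRed I n (x (n + 1)) = x n}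
  mul_mem' := by
    intro a b ha hb n
    simp only [Pi.mul_apply, map_mul, ha n, hb n]
  one_mem' := by
    intro n
    simp
  add_mem' := by
    intro a b ha hb n
    simp only [Pi.add_apply, map_add, ha n, hb n]
  zero_mem' := by
    intro n
    simp
  neg_mem' := by
    intro a ha n
    simp only [Pi.neg_apply, map_neg, ha n]

/-- evaluation at level `n` -/
def adicEval (n : ℕ) : adicSeq I →+* R ⧸ I ^ n :=
  (Pi.evalRingHom (fun n : ℕ => R ⧸ I ^ n) n).comp (adicSeq I).subtype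

theorem adicEval_apply (n : ℕ) (x : adicSeq I) : adicEval I n x = x.1 n := rfl

theorem adicEval_compat {m n : ℕ} (hle : m ≤ n) :
    (Ideal.Quotient.factorPow I hle).comp (adicEval I n) = adicEval I m := by
  induction n, hle using Nat.le_induction with
  | base =>
    ext x
    simp [Ideal.Quotient.factor_eq]
  | succ n hle ih =>
    ext x
    have h1 : qRed I n (x.1 (n + 1)) = x.1 n := x.2 n
    have h2 := congrArg (fun φ : adicSeq I →+* R ⧸ I ^ m => φ x) ih
    simp only [RingHom.comp_apply, adicEval_apply] at h2 ⊢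
    rw [← h2, ← h1]
    exact (Ideal.Quotient.factor_comp_apply _ _ _).symm

variable [IsAdicComplete I R]

/-- the limit map -/
def adicLim : adicSeq I →+* R :=
  IsAdicComplete.liftRingHom I (adicEval I) (fun hle => adicEval_compat I hle)

theorem mk_adicLim (n : ℕ) (x : adicSeq I) :
    Ideal.Quotient.mk (I ^ n) (adicLim I x) = x.1 n :=
  IsAdicComplete.mk_liftRingHom I (adicEval I) (fun hle => adicEval_compat I hle) n x

theorem eq_of_forall_mk_eq {x y : R} (h : ∀ n, Ideal.Quotient.mk (I ^ n) x = Ideal.Quotient.mk (I ^ n) y) :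
    x = y := by
  rw [IsHausdorff.eq_iff_smodEq (I := I)]
  intro n
  rw [SModEq.sub_mem, smul_eq_mul, Ideal.mul_top]
  exact Ideal.Quotient.eq.1 (h n)

theorem matrix_ext_mk {A B : Matrix (Fin 2) (Fin 2) R}
    (h : ∀ n, A.map (Ideal.Quotient.mk (I ^ n)) = B.map (Ideal.Quotient.mk (I ^ n))) : A = B := by
  ext i j
  apply eq_of_forall_mk_eq I
  intro n
  have := congrFun (congrFun (h n) i) j
  simpa [Matrix.map_apply] using this

/-! ### the tower -/

variable {I}
variable {G : Type*} [Group G] [Finite G]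

theorem isUnit_card_quot (hG : IsUnit ((Nat.card G : ℕ) : R)) (n : ℕ) :
    IsUnit ((Nat.card G : ℕ) : R ⧸ I ^ n) := by
  have := hG.map (Ideal.Quotient.mk (I ^ n))
  rwa [map_natCast] at this

/-- the tower of lifts -/
def adicTower (hG : IsUnit ((Nat.card G : ℕ) : R)) (ρ₁ : G →* GL (Fin 2) (R ⧸ I ^ 1)) :
    ∀ n : ℕ, G →* GL (Fin 2) (R ⧸ I ^ n)
  | 0 => 1
  | 1 => ρ₁
  | (n + 2) => Classical.choose (exists_lift_of_sqZero (qRed I (n + 1))
      (qRed_sqZero I (Nat.le_add_left 1 n)) (qRed_surjective I (n + 1))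
      (isUnit_card_quot hG (n + 1 + 1)) (adicTower hG ρ₁ (n + 1)))

theorem adicTower_one (hG : IsUnit ((Nat.card G : ℕ) : R)) (ρ₁ : G →* GL (Fin 2) (R ⧸ I ^ 1)) :
    adicTower hG ρ₁ 1 = ρ₁ := rfl

theorem glMap_adicTower (hG : IsUnit ((Nat.card G : ℕ) : R)) (ρ₁ : G →* GL (Fin 2) (R ⧸ I ^ 1))
    (n : ℕ) (g : G) : glMap (qRed I n) (adicTower hG ρ₁ (n + 1) g) = adicTower hG ρ₁ n g := by
  match n with
  | 0 =>
    haveI : Subsingleton (R ⧸ I ^ 0) := by
      rw [pow_zero, Ideal.one_eq_top]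
      exact Ideal.Quotient.subsingleton_iff.2 rfl
    apply Units.ext
    ext i j
    exact Subsingleton.elim _ _
  | (n + 1) =>
    exact Classical.choose_spec (exists_lift_of_sqZero (qRed I (n + 1))
      (qRed_sqZero I (Nat.le_add_left 1 n)) (qRed_surjective I (n + 1))
      (isUnit_card_quot hG (n + 1 + 1)) (adicTower hG ρ₁ (n + 1))) g

/-- the entries of the tower as compatible sequences -/
def adicEntry (hG : IsUnit ((Nat.card G : ℕ) : R)) (ρ₁ : G →* GL (Fin 2) (R ⧸ I ^ 1)) (g : G)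
    (i j : Fin 2) : adicSeq I :=
  ⟨fun n => (adicTower hG ρ₁ n g).val i j, by
    intro n
    have h := glMap_adicTower hG ρ₁ n g
    have h2 := congrArg (fun x : GL (Fin 2) (R ⧸ I ^ n) => x.val i j) h
    simp only [glMap_val, Matrix.map_apply] at h2
    exact h2⟩

/-- the limit matrix -/
def adicMat (hG : IsUnit ((Nat.card G : ℕ) : R)) (ρ₁ : G →* GL (Fin 2) (R ⧸ I ^ 1)) (g : G) :
    Matrix (Fin 2) (Fin 2) R :=
  Matrix.of fun i j => adicLim I (adicEntry hG ρ₁ g i j)

theorem map_mk_adicMat (hG : IsUnit ((Nat.card G : ℕ) : R)) (ρ₁ : G →* GL (Fin 2) (R ⧸ I ^ 1))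
    (g : G) (n : ℕ) :
    (adicMat hG ρ₁ g).map (Ideal.Quotient.mk (I ^ n)) = (adicTower hG ρ₁ n g).val := by
  ext i j
  rw [Matrix.map_apply]
  exact mk_adicLim I n _

/-- the limit homomorphism to `M₂(R)` -/
def adicHom (hG : IsUnit ((Nat.card G : ℕ) : R)) (ρ₁ : G →* GL (Fin 2) (R ⧸ I ^ 1)) :
    G →* Matrix (Fin 2) (Fin 2) R where
  toFun := adicMat hG ρ₁
  map_one' := by
    apply matrix_ext_mk I
    intro n
    rw [map_mk_adicMat, map_one]
    ext i j
    by_cases hij : i = j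
    · subst hij; simp
    · simp [Matrix.one_apply_ne hij]
  map_mul' g h := by
    apply matrix_ext_mk I
    intro n
    rw [map_mk_adicMat, map_mul, Matrix.map_mul, map_mk_adicMat, map_mk_adicMat]
    rfl

variable (I)

/-- the identification `R ⧸ I ≃ R ⧸ I^1` -/
def quotPowOne : R ⧸ I ≃+* R ⧸ I ^ 1 := Ideal.quotEquivOfEq (pow_one I).symm

theorem quotPowOne_symm_mk (x : R) :
    (quotPowOne I).symm (Ideal.Quotient.mk (I ^ 1) x) = Ideal.Quotient.mk I x := by
  unfold quotPowOne
  simp [Ideal.quotEquivOfEq_mk]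

/-- **I8b, adic form**: lifting along an adically complete ring -/
theorem exists_lift_adic (hG : IsUnit ((Nat.card G : ℕ) : R)) (r : G →* GL (Fin 2) (R ⧸ I)) :
    ∃ ρ : G →* GL (Fin 2) R, ∀ g, (ρ g).val.map (Ideal.Quotient.mk I) = (r g).val := by
  set ρ₁ : G →* GL (Fin 2) (R ⧸ I ^ 1) :=
    (Matrix.GeneralLinearGroup.map (quotPowOne I).toRingHom).comp r with hρ₁
  refine ⟨(adicHom hG ρ₁).toHomUnits, ?_⟩
  intro g
  have h1 : ((adicHom hG ρ₁).toHomUnits g).val = adicMat hG ρ₁ g := rfl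
  have h2 := map_mk_adicMat hG ρ₁ g 1
  rw [adicTower_one] at h2
  rw [h1]
  ext i j
  have h3 := congrFun (congrFun h2 i) j
  simp only [Matrix.map_apply] at h3 ⊢
  rw [← quotPowOne_symm_mk, h3, hρ₁]
  simp [Matrix.GeneralLinearGroup.map]

/-- **I8b** in the form of helper2's `DS.LiftStmt` -/
theorem liftStmt :
    ∀ (R : Type) [CommRing R] [IsLocalRing R] [IsNoetherianRing R]
      [IsAdicComplete (IsLocalRing.maximalIdeal R) R]
      (G : Type) [Group G] [Finite G], IsUnit ((Nat.card G : ℕ) : R) →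
      ∀ r : G →* GL (Fin 2) (IsLocalRing.ResidueField R),
        ∃ ρ : G →* GL (Fin 2) R, ∀ g : G,
          (ρ g : Matrix (Fin 2) (Fin 2) R).map (IsLocalRing.residue R) =
            (r g : Matrix (Fin 2) (Fin 2) (IsLocalRing.ResidueField R)) := by
  intro R _ _ _ _ G _ _ hG r
  exact exists_lift_adic (IsLocalRing.maximalIdeal R) hG r

end Fermat.Agent.S48lib.Lift
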