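/-
S48lib / Lift / Iota (helper6).
`ℂ_ℓ ≃+* ℂ` (abstractly): both are algebraically closed of characteristic zero and of cardinality
the continuum.
-/
import Mathlib

set_option autoImplicit false
set_option linter.unusedSectionVars false

noncomputable section

namespace Fermat.Agent.S48lib.Lift

open Cardinal Filter Topology

/-- a first-countable Hausdorff space with a dense image of `X` has at most `#(ℕ → X)` points -/
theorem mk_le_of_denseRange {X Y : Type} [TopologicalSpace Y] [FirstCountableTopology Y]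
    [T2Space Y] (c : X → Y) (hc : DenseRange c) : #Y ≤ #(ℕ → X) := by
  have h : ∀ y : Y, ∃ u : ℕ → X, Tendsto (fun n => c (u n)) atTop (𝓝 y) := by
    intro y
    have hy : y ∈ closure (Set.range c) := hc y
    rw [mem_closure_iff_seq_limit] at hy
    obtain ⟨x, hx, hlim⟩ := hy
    choose u hu using hx
    refine ⟨u, ?_⟩
    have : (fun n => c (u n)) = x := funext hu
    rw [this]
    exact hlim
  choose U hU using h
  apply Cardinal.mk_le_of_injective (f := U)
  intro y y' hyy'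
  have h1 := hU y
  rw [hyy'] at h1
  exact tendsto_nhds_unique h1 (hU y')

variable (ℓ : ℕ) [hℓ : Fact ℓ.Prime]

theorem mk_padic_le : #ℚ_[ℓ] ≤ 𝔠 := by
  have h := mk_le_of_denseRange ((↑) : ℚ → ℚ_[ℓ]) (Padic.denseRange_ratCast ℓ)
  have h2 : #(ℕ → ℚ) = 𝔠 := by
    rw [Cardinal.mk_arrow, Cardinal.mkRat, Cardinal.mk_nat]
    simp [Cardinal.aleph0_power_aleph0]
  rwa [h2] at h

theorem mk_padicAlgCl_le : #(PadicAlgCl ℓ) ≤ 𝔠 := by
  have h := Algebra.IsAlgebraic.cardinalMk_le_max ℚ_[ℓ] (PadicAlgCl ℓ)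
  exact h.trans (max_le (mk_padic_le ℓ) Cardinal.aleph0_le_continuum)

theorem mk_padicComplex : #ℂ_[ℓ] = 𝔠 := by
  apply le_antisymm
  · have h := mk_le_of_denseRange ((↑) : PadicAlgCl ℓ → ℂ_[ℓ])
      UniformSpace.Completion.denseRange_coe
    have h2 : #(ℕ → PadicAlgCl ℓ) ≤ 𝔠 := by
      rw [Cardinal.mk_arrow, Cardinal.mk_nat]
      simp only [Cardinal.lift_id]
      calc #(PadicAlgCl ℓ) ^ ℵ₀ ≤ 𝔠 ^ ℵ₀ := Cardinal.power_le_power_right (mk_padicAlgCl_le ℓ)
        _ = 𝔠 := Cardinal.continuum_power_aleph0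
    exact h.trans h2
  · exact continuum_le_cardinal_of_nontriviallyNormedField ℂ_[ℓ]

/-- `ℂ_ℓ` and `ℂ` are (abstractly) isomorphic -/
theorem nonempty_padicComplex_ringEquiv : Nonempty (ℂ_[ℓ] ≃+* ℂ) := by
  apply IsAlgClosed.ringEquiv_of_equiv_of_charZero
  · rw [mk_padicComplex]
    exact Cardinal.aleph0_lt_continuum
  · apply Cardinal.eq.1
    rw [mk_padicComplex, Cardinal.mk_complex]

/-- a fixed isomorphism `ℂ_ℓ ≃+* ℂ` -/
def iota : ℂ_[ℓ] ≃+* ℂ := Classical.choice (nonempty_padicComplex_ringEquiv ℓ)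

end Fermat.Agent.S48lib.Lift
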