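/-
S48lib / Lift / OC (helper6).
The ring of integers `𝒪 = {‖x‖ ≤ 1}` of `ℂ_ℓ` (`PadicComplex ℓ`, complete and algebraically closed
by Mathlib): valuation subring, units, divisibility, completeness with respect to a principal
ideal `(π)`, `0 < ‖π‖ < 1`; the residue field is algebraically closed of characteristic `ℓ`.
-/
import Mathlib

set_option autoImplicit false
set_option linter.unusedSectionVars false
set_option linter.style.haveILetI false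

noncomputable section

namespace Fermat.Agent.S48lib.Lift

open IsLocalRing

variable (ℓ : ℕ) [hℓ : Fact ℓ.Prime]

/-- the ring of integers of `ℂ_ℓ` -/
def OC : ValuationSubring ℂ_[ℓ] where
  carrier := {x | ‖x‖ ≤ 1}
  mul_mem' := by
    intro a b ha hb
    simp only [Set.mem_ofPred_eq] at ha hb ⊢
    rw [norm_mul]
    exact mul_le_one₀ ha (norm_nonneg _) hb
  one_mem' := by simp
  add_mem' := by
    intro a b ha hb
    simp only [Set.mem_ofPred_eq] at ha hb ⊢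
    exact (IsUltrametricDist.norm_add_le_max a b).trans (max_le ha hb)
  zero_mem' := by simp
  neg_mem' := by
    intro a ha
    simp only [Set.mem_ofPred_eq] at ha ⊢
    rwa [norm_neg]
  mem_or_inv_mem' := by
    intro x
    simp only [Set.mem_ofPred_eq]
    by_cases hx : ‖x‖ ≤ 1
    · exact Or.inl hx
    · right
      push Not at hx
      rw [norm_inv]
      exact inv_le_one_of_one_le₀ hx.le

variable {ℓ}

theorem mem_OC {x : ℂ_[ℓ]} : x ∈ OC ℓ ↔ ‖x‖ ≤ 1 := Iff.rfl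

theorem norm_le_one (x : OC ℓ) : ‖(x : ℂ_[ℓ])‖ ≤ 1 := x.2

theorem isUnit_iff_norm_eq_one (x : OC ℓ) : IsUnit x ↔ ‖(x : ℂ_[ℓ])‖ = 1 := by
  constructor
  · rintro ⟨u, rfl⟩
    have h1 := norm_le_one (u : OC ℓ)
    have h2 := norm_le_one ((u⁻¹ : (OC ℓ)ˣ) : OC ℓ)
    have h3 : ((u : OC ℓ) : ℂ_[ℓ]) * (((u⁻¹ : (OC ℓ)ˣ) : OC ℓ) : ℂ_[ℓ]) = 1 :=
      congrArg Subtype.val (Units.mul_inv u)
    have h4 := congrArg norm h3
    rw [norm_mul, norm_one] at h4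
    by_contra hne
    have hlt : ‖((u : OC ℓ) : ℂ_[ℓ])‖ < 1 := lt_of_le_of_ne h1 hne
    have : ‖((u : OC ℓ) : ℂ_[ℓ])‖ * ‖(((u⁻¹ : (OC ℓ)ˣ) : OC ℓ) : ℂ_[ℓ])‖ < 1 := by
      calc _ ≤ ‖((u : OC ℓ) : ℂ_[ℓ])‖ * 1 :=
            mul_le_mul_of_nonneg_left h2 (norm_nonneg _)
        _ < 1 := by rw [mul_one]; exact hlt
    exact absurd h4 this.ne
  · intro hx
    have hx0 : (x : ℂ_[ℓ]) ≠ 0 := by
      intro h0
      rw [h0, norm_zero] at hx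
      exact zero_ne_one hx
    have hinv : (x : ℂ_[ℓ])⁻¹ ∈ OC ℓ := by
      rw [mem_OC, norm_inv, hx, inv_one]
    refine IsUnit.of_mul_eq_one ⟨(x : ℂ_[ℓ])⁻¹, hinv⟩ ?_
    apply Subtype.ext
    show (x : ℂ_[ℓ]) * (x : ℂ_[ℓ])⁻¹ = 1
    exact mul_inv_cancel₀ hx0

theorem mem_maximalIdeal_iff (x : OC ℓ) : x ∈ maximalIdeal (OC ℓ) ↔ ‖(x : ℂ_[ℓ])‖ < 1 := by
  rw [IsLocalRing.mem_maximalIdeal, mem_nonunits_iff, isUnit_iff_norm_eq_one]
  constructor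
  · intro h
    exact lt_of_le_of_ne (norm_le_one x) h
  · intro h
    exact h.ne

theorem dvd_iff_norm_le {π x : OC ℓ} (hπ : π ≠ 0) : π ∣ x ↔ ‖(x : ℂ_[ℓ])‖ ≤ ‖(π : ℂ_[ℓ])‖ := by
  have hπ0 : (π : ℂ_[ℓ]) ≠ 0 := fun h => hπ (Subtype.ext h)
  constructor
  · rintro ⟨y, rfl⟩
    show ‖(π : ℂ_[ℓ]) * (y : ℂ_[ℓ])‖ ≤ _
    rw [norm_mul]
    calc ‖(π : ℂ_[ℓ])‖ * ‖(y : ℂ_[ℓ])‖ ≤ ‖(π : ℂ_[ℓ])‖ * 1 :=
          mul_le_mul_of_nonneg_left (norm_le_one y) (norm_nonneg _)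
      _ = ‖(π : ℂ_[ℓ])‖ := mul_one _
  · intro h
    have hy : (x : ℂ_[ℓ]) / (π : ℂ_[ℓ]) ∈ OC ℓ := by
      rw [mem_OC, norm_div]
      exact div_le_one_of_le₀ h (norm_nonneg _)
    refine ⟨⟨_, hy⟩, ?_⟩
    apply Subtype.ext
    show (x : ℂ_[ℓ]) = (π : ℂ_[ℓ]) * ((x : ℂ_[ℓ]) / (π : ℂ_[ℓ]))
    field_simp

theorem mem_span_pow_iff {π : OC ℓ} (hπ : π ≠ 0) (n : ℕ) (x : OC ℓ) :
    x ∈ (Ideal.span {π}) ^ n ↔ ‖(x : ℂ_[ℓ])‖ ≤ ‖(π : ℂ_[ℓ])‖ ^ n := by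
  rw [Ideal.span_singleton_pow, Ideal.mem_span_singleton, dvd_iff_norm_le (pow_ne_zero n hπ)]
  simp

/-- `𝒪` is `(π)`-adically complete -/
theorem isAdicComplete_span {π : OC ℓ} (hπ0 : π ≠ 0) (hπ : ‖(π : ℂ_[ℓ])‖ < 1) :
    IsAdicComplete (Ideal.span {π}) (OC ℓ) := by
  have hπpos : 0 < ‖(π : ℂ_[ℓ])‖ := norm_pos_iff.2 (fun h => hπ0 (Subtype.ext h))
  haveI : IsHausdorff (Ideal.span {π}) (OC ℓ) := by
    refine ⟨fun x hx => ?_⟩
    have h1 : ∀ n : ℕ, ‖(x : ℂ_[ℓ])‖ ≤ ‖(π : ℂ_[ℓ])‖ ^ n := by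
      intro n
      have := hx n
      rw [SModEq.zero, smul_eq_mul, Ideal.mul_top] at this
      exact (mem_span_pow_iff hπ0 n x).1 this
    have h2 : ‖(x : ℂ_[ℓ])‖ ≤ 0 :=
      ge_of_tendsto' (tendsto_pow_atTop_nhds_zero_of_lt_one (norm_nonneg _) hπ) h1
    apply Subtype.ext
    exact norm_le_zero_iff.1 h2
  haveI : IsPrecomplete (Ideal.span {π}) (OC ℓ) := by
    refine ⟨fun f hf => ?_⟩
    -- the sequence is Cauchy
    have hdist : ∀ m n : ℕ, m ≤ n → ‖((f m : OC ℓ) : ℂ_[ℓ]) - (f n : OC ℓ)‖ ≤ ‖(π : ℂ_[ℓ])‖ ^ m := by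
      intro m n hmn
      have := hf hmn
      rw [SModEq.sub_mem, smul_eq_mul, Ideal.mul_top] at this
      exact (mem_span_pow_iff hπ0 m _).1 this
    have hcau : CauchySeq (fun n => ((f n : OC ℓ) : ℂ_[ℓ])) := by
      apply cauchySeq_of_le_geometric ‖(π : ℂ_[ℓ])‖ 1 hπ
      intro n
      rw [dist_eq_norm, one_mul]
      exact hdist n (n + 1) (Nat.le_succ n)
    obtain ⟨L, hL⟩ := cauchySeq_tendsto_of_complete hcau
    have hL1 : ‖L‖ ≤ 1 := by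
      have h1 : Filter.Tendsto (fun n => ‖((f n : OC ℓ) : ℂ_[ℓ])‖) Filter.atTop (nhds ‖L‖) :=
        (continuous_norm.tendsto L).comp hL
      exact le_of_tendsto' h1 (fun n => norm_le_one (f n))
    refine ⟨⟨L, hL1⟩, fun n => ?_⟩
    rw [SModEq.sub_mem, smul_eq_mul, Ideal.mul_top, mem_span_pow_iff hπ0]
    show ‖((f n : OC ℓ) : ℂ_[ℓ]) - L‖ ≤ _
    have h2 : Filter.Tendsto (fun m => ‖((f n : OC ℓ) : ℂ_[ℓ]) - (f m : OC ℓ)‖) Filter.atTop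
        (nhds ‖((f n : OC ℓ) : ℂ_[ℓ]) - L‖) :=
      (continuous_norm.tendsto _).comp (tendsto_const_nhds.sub hL)
    apply le_of_tendsto h2
    filter_upwards [Filter.eventually_ge_atTop n] with m hm
    exact hdist n m hm
  exact { }

end Fermat.Agent.S48lib.Lift
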