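/-
S48lib / Lift / ResField (helper6).
The residue field of `𝒪 = 𝒪_{ℂ_ℓ}`: characteristic `ℓ`, algebraically closed.
-/
import Fermat.Agent.S48lib.Lift.OC

set_option autoImplicit false
set_option linter.unusedSectionVars false
set_option linter.style.haveILetI false

noncomputable section

namespace Fermat.Agent.S48lib.Lift

open IsLocalRing Polynomial

variable (ℓ : ℕ) [hℓ : Fact ℓ.Prime]

/-- the residue field of `𝒪_{ℂ_ℓ}` -/
abbrev resField : Type := ResidueField (OC ℓ)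

/-- the residue map -/
abbrev resMap : OC ℓ →+* resField ℓ := residue (OC ℓ)

variable {ℓ}

theorem norm_natCast_prime : ‖((ℓ : ℕ) : ℂ_[ℓ])‖ = (ℓ : ℝ)⁻¹ := by
  have h1 : ((ℓ : ℕ) : ℂ_[ℓ]) = algebraMap ℚ_[ℓ] ℂ_[ℓ] ((ℓ : ℕ) : ℚ_[ℓ]) := (map_natCast _ _).symm
  rw [h1, norm_algebraMap', Padic.norm_p]

theorem natCast_prime_mem_maximalIdeal : ((ℓ : ℕ) : OC ℓ) ∈ maximalIdeal (OC ℓ) := by
  rw [mem_maximalIdeal_iff]
  have h1 : (((ℓ : ℕ) : OC ℓ) : ℂ_[ℓ]) = ((ℓ : ℕ) : ℂ_[ℓ]) := by simp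
  rw [h1, norm_natCast_prime]
  exact inv_lt_one_of_one_lt₀ (by exact_mod_cast hℓ.out.one_lt)

instance charP_resField : CharP (resField ℓ) ℓ := by
  apply (CharP.charP_iff_prime_eq_zero hℓ.out).2
  have h1 : ((ℓ : ℕ) : resField ℓ) = resMap ℓ ((ℓ : ℕ) : OC ℓ) := (map_natCast _ _).symm
  rw [h1]
  exact (residue_eq_zero_iff _).2 natCast_prime_mem_maximalIdeal

/-- elements of `ℂ_ℓ` integral over `𝒪` lie in `𝒪` -/
theorem mem_OC_of_isIntegral {x : ℂ_[ℓ]} (hx : IsIntegral (OC ℓ) x) : x ∈ OC ℓ := by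
  obtain ⟨y, hy⟩ := IsIntegrallyClosed.algebraMap_eq_of_integral hx
  rw [← hy]
  exact y.2

instance isAlgClosed_resField : IsAlgClosed (resField ℓ) := by
  apply IsAlgClosed.of_exists_root
  intro p hpm hpirr
  have hsurj : Function.Surjective (resMap ℓ) := residue_surjective
  have hlift : p ∈ Polynomial.lifts (resMap ℓ) := by
    rw [Polynomial.mem_lifts]
    exact Polynomial.map_surjective _ hsurj p
  obtain ⟨q, hqmap, hqdeg, hqm⟩ := Polynomial.lifts_and_degree_eq_and_monic hlift hpm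
  have hdeg : (q.map (algebraMap (OC ℓ) ℂ_[ℓ])).degree ≠ 0 := by
    rw [Polynomial.degree_map_eq_of_injective (FaithfulSMul.algebraMap_injective _ _), hqdeg]
    exact Polynomial.degree_pos_of_irreducible hpirr |>.ne'
  obtain ⟨x, hx⟩ := IsAlgClosed.exists_root _ hdeg
  have hxint : IsIntegral (OC ℓ) x := by
    refine ⟨q, hqm, ?_⟩
    rw [Polynomial.IsRoot.def, Polynomial.eval_map] at hx
    exact hx
  have hxO := mem_OC_of_isIntegral hxint
  refine ⟨resMap ℓ ⟨x, hxO⟩, ?_⟩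
  rw [← hqmap, Polynomial.eval_map, Polynomial.eval₂_hom]
  have h0 : q.eval (⟨x, hxO⟩ : OC ℓ) = 0 := by
    apply Subtype.ext
    rw [Polynomial.IsRoot.def, Polynomial.eval_map] at hx
    have h1 : ((q.eval (⟨x, hxO⟩ : OC ℓ) : OC ℓ) : ℂ_[ℓ])
        = Polynomial.eval₂ (algebraMap (OC ℓ) ℂ_[ℓ]) x q :=
      (Polynomial.eval₂_hom (algebraMap (OC ℓ) ℂ_[ℓ]) (⟨x, hxO⟩ : OC ℓ)).symm
    rw [h1, hx]
    rfl
  rw [h0, map_zero]

end Fermat.Agent.S48lib.Lift
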