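/-
S48lib / Lift / RedCore (helper6).
The reduction map `redHom ℓ : ℤ̄ →+* resField ℓ` (through the fixed `iota ℓ : ℂ_ℓ ≃+* ℂ`) and the
lifting theorem: a homomorphism of a finite group of order prime to `ℓ` into `GL₂(resField ℓ)` lifts
to `GL₂(ℂ)` with traces and determinants in `ℤ̄` reducing to the given ones.
-/
import Fermat.Agent.S48lib.Lift.Adic
import Fermat.Agent.S48lib.Lift.ResField
import Fermat.Agent.S48lib.Lift.Iota

set_option autoImplicit false
set_option linter.unusedSectionVars false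
set_option linter.style.haveILetI false

noncomputable section

namespace Fermat.Agent.S48lib.Lift

open IsLocalRing Polynomial Matrix

/-! ### finite order ⇒ integral trace and determinant -/

theorem isIntegral_of_mem_roots_charpoly {K : Type*} [Field K]
    (A : Matrix (Fin 2) (Fin 2) K) {m : ℕ} (hm : 0 < m) (hA : A ^ m = 1) {μ : K}
    (hμ : μ ∈ A.charpoly.roots) : IsIntegral ℤ μ := by
  have h1 : μ ∈ spectrum K A :=
    Matrix.mem_spectrum_iff_isRoot_charpoly.2 (Polynomial.isRoot_of_mem_roots hμ)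
  have h2 : (Polynomial.eval · (X ^ m : K[X])) μ ∈ spectrum K (Polynomial.aeval A (X ^ m : K[X])) :=
    spectrum.subset_polynomial_aeval A (X ^ m) ⟨μ, h1, rfl⟩
  simp only [Polynomial.eval_pow, Polynomial.eval_X, map_pow, Polynomial.aeval_X, hA,
    spectrum.one_eq, Set.mem_singleton_iff] at h2
  apply IsIntegral.of_pow hm
  rw [h2]
  exact isIntegral_one

theorem isIntegral_trace_of_pow_eq_one {K : Type*} [Field K] [IsAlgClosed K]
    (A : Matrix (Fin 2) (Fin 2) K) {m : ℕ} (hm : 0 < m) (hA : A ^ m = 1) :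
    IsIntegral ℤ A.trace := by
  rw [Matrix.trace_eq_sum_roots_charpoly]
  exact IsIntegral.multiset_sum (fun μ hμ => isIntegral_of_mem_roots_charpoly A hm hA hμ)

theorem isIntegral_det_of_pow_eq_one {K : Type*} [Field K] [IsAlgClosed K]
    (A : Matrix (Fin 2) (Fin 2) K) {m : ℕ} (hm : 0 < m) (hA : A ^ m = 1) :
    IsIntegral ℤ A.det := by
  rw [Matrix.det_eq_prod_roots_charpoly]
  exact IsIntegral.multiset_prod (fun μ hμ => isIntegral_of_mem_roots_charpoly A hm hA hμ)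

/-! ### the reduction map -/

variable (ℓ : ℕ) [hℓ : Fact ℓ.Prime]

/-- `𝒪 → ℂ` through `iota` -/
def toC : OC ℓ →+* ℂ := (iota ℓ).toRingHom.comp (OC ℓ).subtype

theorem toC_apply (y : OC ℓ) : toC ℓ y = iota ℓ (y : ℂ_[ℓ]) := rfl

theorem symm_mem_OC (x : integralClosure ℤ ℂ) : (iota ℓ).symm (x : ℂ) ∈ OC ℓ := by
  obtain ⟨p, hpm, hp⟩ := x.2
  apply mem_OC_of_isIntegral
  refine ⟨p.map (Int.castRingHom (OC ℓ)), hpm.map _, ?_⟩
  rw [Polynomial.eval₂_map]
  have h1 := congrArg (iota ℓ).symm hp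
  rw [map_zero] at h1
  have h2 : (iota ℓ).symm (Polynomial.eval₂ (algebraMap ℤ ℂ) (x : ℂ) p)
      = Polynomial.eval₂ (((iota ℓ).symm : ℂ →+* ℂ_[ℓ]).comp (algebraMap ℤ ℂ))
          ((iota ℓ).symm (x : ℂ)) p :=
    Polynomial.hom_eval₂ p (algebraMap ℤ ℂ) ((iota ℓ).symm : ℂ →+* ℂ_[ℓ]) (x : ℂ)
  rw [h2] at h1
  rw [← h1]
  congr 1
  exact RingHom.ext_int _ _

/-- `ℤ̄ → 𝒪` through `iota⁻¹` -/
def zbarToOC : integralClosure ℤ ℂ →+* OC ℓ :=
  ((iota ℓ).symm.toRingHom.comp (integralClosure ℤ ℂ).val.toRingHom).codRestrict (OC ℓ)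
    (fun x => symm_mem_OC ℓ x)

theorem zbarToOC_coe (x : integralClosure ℤ ℂ) :
    ((zbarToOC ℓ x : OC ℓ) : ℂ_[ℓ]) = (iota ℓ).symm (x : ℂ) := rfl

/-- **the reduction map** `ℤ̄ → resField ℓ` -/
def redHom : integralClosure ℤ ℂ →+* resField ℓ := (resMap ℓ).comp (zbarToOC ℓ)

theorem redHom_eq_of_toC_eq (t : integralClosure ℤ ℂ) (y : OC ℓ) (h : toC ℓ y = (t : ℂ)) :
    redHom ℓ t = resMap ℓ y := by
  have : zbarToOC ℓ t = y := by
    apply Subtype.ext
    rw [zbarToOC_coe, ← h, toC_apply, RingEquiv.symm_apply_apply]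
  rw [redHom, RingHom.comp_apply, this]

/-! ### lifting -/

variable {ℓ}
variable {G : Type*} [Group G] [Finite G]

theorem isUnit_card_OC (hG : ¬ ℓ ∣ Nat.card G) : IsUnit ((Nat.card G : ℕ) : OC ℓ) := by
  by_contra hnu
  have h1 : ((Nat.card G : ℕ) : OC ℓ) ∈ maximalIdeal (OC ℓ) := hnu
  have h2 : resMap ℓ ((Nat.card G : ℕ) : OC ℓ) = 0 := (residue_eq_zero_iff _).2 h1
  rw [map_natCast] at h2
  exact hG ((CharP.cast_eq_zero_iff (resField ℓ) ℓ _).1 h2)

/-- **lifting to `𝒪`** -/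
theorem exists_lift_OC (hG : ¬ ℓ ∣ Nat.card G) (r : G →* GL (Fin 2) (resField ℓ)) :
    ∃ ρ : G →* GL (Fin 2) (OC ℓ), ∀ g, (ρ g).val.map (resMap ℓ) = (r g).val := by
  classical
  haveI : Fintype G := Fintype.ofFinite G
  have hsurj : Function.Surjective (resMap ℓ) := residue_surjective
  -- entrywise lifts
  choose c hc using hsurj
  set s : G → Matrix (Fin 2) (Fin 2) (OC ℓ) := fun g => Matrix.of fun i j => c ((r g).val i j)
    with hs
  have hsmap : ∀ g, (s g).map (resMap ℓ) = (r g).val := by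
    intro g
    ext i j
    simp [hs, hc]
  have hsdet : ∀ g, IsUnit (s g).det := by
    intro g
    have h1 : resMap ℓ (s g).det = ((s g).map (resMap ℓ)).det := by
      rw [RingHom.map_det]; rfl
    have h2 : IsUnit (resMap ℓ (s g).det) := by
      rw [h1, hsmap]
      exact (Matrix.isUnit_iff_isUnit_det _).1 (r g).isUnit
    exact isUnit_of_map_unit (resMap ℓ) _ h2
  -- the errors
  set err : G × G × Fin 2 × Fin 2 → OC ℓ :=
    fun x => (s x.1 * s x.2.1 - s (x.1 * x.2.1)) x.2.2.1 x.2.2.2 with herr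
  have herrm : ∀ x, err x ∈ maximalIdeal (OC ℓ) := by
    intro x
    rw [← residue_eq_zero_iff]
    have h1 : ∀ g h : G, ((s g * s h).map (resMap ℓ)) = (s (g * h)).map (resMap ℓ) := by
      intro g h
      rw [Matrix.map_mul, hsmap, hsmap, hsmap, map_mul, Units.val_mul]
    have h2 := congrFun (congrFun (h1 x.1 x.2.1) x.2.2.1) x.2.2.2
    rw [Matrix.map_apply, Matrix.map_apply] at h2
    show resMap ℓ ((s x.1 * s x.2.1 - s (x.1 * x.2.1)) x.2.2.1 x.2.2.2) = 0
    rw [Matrix.sub_apply, map_sub, h2, sub_self]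
  set T : Finset (OC ℓ) := insert ((ℓ : ℕ) : OC ℓ) (Finset.univ.image err) with hT
  obtain ⟨π, hπT, hπmax⟩ := Finset.exists_max_image T (fun x => ‖(x : ℂ_[ℓ])‖)
    ⟨_, Finset.mem_insert_self _ _⟩
  have hπm : π ∈ maximalIdeal (OC ℓ) := by
    rw [hT, Finset.mem_insert] at hπT
    rcases hπT with rfl | h
    · exact natCast_prime_mem_maximalIdeal
    · obtain ⟨x, -, rfl⟩ := Finset.mem_image.1 h
      exact herrm x
  have hπlt : ‖(π : ℂ_[ℓ])‖ < 1 := (mem_maximalIdeal_iff π).1 hπm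
  have hπ0 : π ≠ 0 := by
    intro h0
    have h1 := hπmax _ (Finset.mem_insert_self ((ℓ : ℕ) : OC ℓ) (Finset.univ.image err))
    rw [h0] at h1
    have h2 : (((ℓ : ℕ) : OC ℓ) : ℂ_[ℓ]) = ((ℓ : ℕ) : ℂ_[ℓ]) := by simp
    rw [h2, norm_natCast_prime] at h1
    simp only [ZeroMemClass.coe_zero, norm_zero] at h1
    have : (0 : ℝ) < (ℓ : ℝ)⁻¹ := inv_pos.2 (by exact_mod_cast hℓ.out.pos)
    linarith
  set I : Ideal (OC ℓ) := Ideal.span {π} with hI
  have hIle : I ≤ maximalIdeal (OC ℓ) := by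
    rw [hI, Ideal.span_le]
    intro x hx
    rw [Set.mem_singleton_iff.1 hx]
    exact hπm
  haveI : IsAdicComplete I (OC ℓ) := isAdicComplete_span hπ0 hπlt
  have herrI : ∀ g h i j, (s g * s h - s (g * h)) i j ∈ I := by
    intro g h i j
    rw [hI, Ideal.mem_span_singleton, dvd_iff_norm_le hπ0]
    exact hπmax (err (g, h, i, j))
      (Finset.mem_insert_of_mem (Finset.mem_image_of_mem _ (Finset.mem_univ _)))
  -- the homomorphism modulo `I`
  let S : G → GL (Fin 2) (OC ℓ) := fun g => Matrix.GeneralLinearGroup.mk'' (s g) (hsdet g)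
  have hSval : ∀ g, (S g).val = s g := fun g => rfl
  let r' : G →* GL (Fin 2) (OC ℓ ⧸ I) := MonoidHom.mk' (fun g => glMap (Ideal.Quotient.mk I) (S g))
    (by
      intro g h
      apply Units.ext
      rw [Units.val_mul, glMap_val, glMap_val, glMap_val, hSval, hSval, hSval, ← Matrix.map_mul]
      ext i j
      rw [Matrix.map_apply, Matrix.map_apply]
      apply Ideal.Quotient.eq.2
      have := herrI g h i j
      rw [Matrix.sub_apply] at this
      have h2 : (s (g * h)) i j - (s g * s h) i j = -((s g * s h) i j - (s (g * h)) i j) := by ring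
      rw [h2]
      exact I.neg_mem this)
  obtain ⟨ρ, hρ⟩ := exists_lift_adic I (isUnit_card_OC hG) r'
  refine ⟨ρ, fun g => ?_⟩
  rw [← hsmap g]
  ext i j
  rw [Matrix.map_apply, Matrix.map_apply]
  have h1 := congrFun (congrFun (hρ g) i) j
  have h2 : (r' g).val = (s g).map (Ideal.Quotient.mk I) := rfl
  rw [h2, Matrix.map_apply, Matrix.map_apply] at h1
  have h3 : (ρ g).val i j - s g i j ∈ I := Ideal.Quotient.eq.1 h1
  have h4 := hIle h3
  rw [← residue_eq_zero_iff, map_sub, sub_eq_zero] at h4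
  exact h4

/-- **I8b**: lifting to `GL₂(ℂ)` with integral traces and determinants reducing correctly -/
theorem exists_complex_lift (hG : ¬ ℓ ∣ Nat.card G) (r : G →* GL (Fin 2) (resField ℓ)) :
    ∃ ρ : G →* GL (Fin 2) ℂ, ∀ g : G, ∃ t d : integralClosure ℤ ℂ,
      (ρ g).val.trace = (t : ℂ) ∧ (ρ g).val.det = (d : ℂ) ∧
      redHom ℓ t = (r g).val.trace ∧ redHom ℓ d = (r g).val.det := by
  obtain ⟨ρ', hρ'⟩ := exists_lift_OC hG r
  set ρ : G →* GL (Fin 2) ℂ := (Matrix.GeneralLinearGroup.map (toC ℓ)).comp ρ' with hρ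
  refine ⟨ρ, fun g => ?_⟩
  have hval : (ρ g).val = (ρ' g).val.map (toC ℓ) := rfl
  have hm : 0 < Nat.card G := Nat.card_pos
  have hpow : (ρ g).val ^ Nat.card G = 1 := by
    rw [← Units.val_pow_eq_pow_val, ← map_pow, pow_card_eq_one', map_one]
    rfl
  have ht : IsIntegral ℤ (ρ g).val.trace := isIntegral_trace_of_pow_eq_one _ hm hpow
  have hd : IsIntegral ℤ (ρ g).val.det := isIntegral_det_of_pow_eq_one _ hm hpow
  refine ⟨⟨_, ht⟩, ⟨_, hd⟩, rfl, rfl, ?_, ?_⟩
  · rw [redHom_eq_of_toC_eq ℓ ⟨_, ht⟩ (ρ' g).val.trace]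
    · rw [← hρ' g]
      simp [Matrix.trace, Matrix.map_apply]
    · show toC ℓ (ρ' g).val.trace = (ρ g).val.trace
      rw [hval]
      simp [Matrix.trace, Matrix.map_apply]
  · rw [redHom_eq_of_toC_eq ℓ ⟨_, hd⟩ (ρ' g).val.det]
    · rw [← hρ' g, RingHom.map_det]
      rfl
    · show toC ℓ (ρ' g).val.det = (ρ g).val.det
      rw [hval, RingHom.map_det]
      rfl

end Fermat.Agent.S48lib.Lift
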