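/-
S48lib / Lift / Final (helper6).
**(I8) `DS.LiftStmt` is a theorem**: at every prime `ℓ` the residue field of `𝒪_{ℂ_ℓ}` with the
reduction map `redHom ℓ : ℤ̄ →+* resField ℓ` is a reduction datum.
-/
import Fermat.Agent.S48lib.Lift.RedCore
import Fermat.Agent.S48lib.DS.Inputs

set_option autoImplicit false

noncomputable section

namespace Fermat.Agent.S48lib.Lift

/-- the reduction datum at `ℓ` -/
def redData (ℓ : ℕ) [Fact ℓ.Prime] : DS.RedData ℓ where
  k := resField ℓ
  red := redHom ℓ
  lift := fun _ _ _ hG r => exists_complex_lift hG r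

/-- **(I8) `DS.LiftStmt`** (the v2/v3 form of `DS/Inputs.lean`) -/
theorem liftStmt_redData : DS.LiftStmt := fun ℓ _ => ⟨redData ℓ⟩

end Fermat.Agent.S48lib.Lift
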